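/-
Programme T1B (row 38 / S44), cell R2/BRANDT + R1, concrete W3 package, second seat (helper55):
AUXILIARY FACTS ON THE CENTRE OF A PLACE, in the vocabulary of `Brandt96/Centre` (helper96):
one chart `B ⊂ F`, `Hc : Hol80.ChartHyp π O₁ O₂`, `res₁ : ↥O₁ →+* k`, `v : Place κ k`,
`hcen : ∀ b, resChart res₁ Hc.le₁ b ∈ v.toValuationSubring`, `cen Hc res₁ v hcen`.

* (55-A) `ord_resChart_eq_zero_of_off` : `hDoff` in `Off`-vocabulary: the test element
  (`h0 * g0 = π ^ n`, `h0` a unit of `O₁`) has order `0` at every place whose centre is off the second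
  branch (`Brandt36.ord_res_eq_zero_of_off_branch`).
* (55-B) `hcen_of_isIntegral`, `hcen_of_isIntegral_adjoin` : a place has a centre on the chart as soon
  as it is regular on a subring over which the chart is integral (`O[t]`).
* (55-C) `ker_resChart_le` : `¬ Off π O₁ 𝔫 → ker (resChart) ≤ 𝔫`;
  `exists_mem_resChart_ne_zero` : at a two-branch maximal ideal (a node) some element of `𝔫` has
  nonzero reduction (the branch parameter `x`).
* (55-C') `hall_of_exists_place` : `hall` from an abstract "place with prescribed centre" supplier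
  (conclusion shape of `Brandt90.HallPlace.exists_place_centre`), and `hall_of_isGen` : the same,
  unconditionally, from `Centre55.exists_place_centre_eq_of_isAlgebraic_zmod`.
-/
import Mathlib
import Fermat.Agent.T1B.Brandt96.Centre
import Fermat.Agent.T1B.Brandt36.AuxNode
import Fermat.Agent.T1B.Centre55.ExistsPlace

set_option autoImplicit false
set_option linter.unusedSectionVars false
set_option linter.unusedVariables false
set_option linter.style.haveILetI false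

namespace Fermat.Agent.T1B.Brandt55

open AlgebraicCurve IsLocalRing Fermat.Agent.T1.Peu37.NodeClassGroup Fermat.Agent.T1B.Hol80
  Fermat.Agent.T1B.NodeNF37.Local Fermat.Agent.T1B.NodeNF37.UnifOrd Fermat.Agent.T1B.Brandt96

variable {B F : Type*} [CommRing B] [IsDomain B] [Field F] [Algebra B F]
variable {κ k : Type*} [Field κ] [Field k] [Algebra κ k]

section A

variable {π : B} {O₁ O₂ : ValuationSubring F} (Hc : ChartHyp π O₁ O₂)
  (res₁ : ↥O₁ →+* k)
  (v : Place κ k) (hcen : ∀ b : B, resChart res₁ Hc.le₁ b ∈ v.toValuationSubring)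

/-- **(55-A) `hDoff`, `Off`-vocabulary.**  The test element `h0` (`h0 * g0 = π ^ n`, `h0` a unit of
`O₁`) has order `0` at every place of the chart whose centre is off the second branch. -/
theorem ord_resChart_eq_zero_of_off {h0 g0 : B} {n : ℕ} (hh : h0 * g0 = π ^ n)
    (hinv : (algebraMap B F h0)⁻¹ ∈ O₁) (hoff : Off π O₂ (cen Hc res₁ v hcen)) :
    v.ord (resChart res₁ Hc.le₁ h0) = 0 := by
  obtain ⟨e, he, c, hc, hec⟩ := hoff
  let B' : Subring F := (algebraMap B F).range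
  have hB₁ : ∀ b ∈ B', b ∈ O₁ := by rintro _ ⟨b, rfl⟩; exact Hc.le₁ b
  have hB₂ : ∀ b ∈ B', b ∈ O₂ := by rintro _ ⟨b, rfl⟩; exact Hc.le₂ b
  have hπ0 : algebraMap B F π ≠ 0 := Hc.unif₁.ne
  have hsat : ∀ c : F, c ∈ O₁ → c ∈ O₂ → algebraMap B F π * c ∈ B' → c ∈ B' := by
    rintro c h1 h2 ⟨b, hb⟩
    obtain ⟨b', hb'⟩ := Hc.sat b c h1 h2 hb
    exact ⟨b', hb'⟩
  have hcen' : ∀ b (hb : b ∈ B'), res₁ ⟨b, hB₁ b hb⟩ ∈ v.toValuationSubring := by
    rintro _ ⟨b, rfl⟩
    exact hcen b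
  have hhh : algebraMap B F h0 * algebraMap B F g0 = algebraMap B F π ^ n := by
    rw [← map_mul, hh, map_pow]
  have hb₂ : algebraMap B F e * (algebraMap B F π)⁻¹ ∈ O₂ := by
    rw [hec, mul_comm, ← mul_assoc, inv_mul_cancel₀ hπ0, one_mul]
    exact hc
  exact Fermat.Agent.T1B.Brandt36.ord_res_eq_zero_of_off_branch O₁ O₂ B' hB₁ hB₂
    (⟨π, rfl⟩ : algebraMap B F π ∈ B') hπ0 hsat res₁ v hcen'
    (⟨h0, rfl⟩ : algebraMap B F h0 ∈ B') (⟨g0, rfl⟩ : algebraMap B F g0 ∈ B') hhh hinv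
    (⟨e, rfl⟩ : algebraMap B F e ∈ B') hb₂
    (resChart_ne_zero_of_notMem Hc res₁ v hcen he) (ord_resChart_of_notMem Hc res₁ v hcen he)

end A

section B

variable {π : B} {O₁ O₂ : ValuationSubring F} (Hc : ChartHyp π O₁ O₂)
  (res₁ : ↥O₁ →+* k) (v : Place κ k)

/-- **(55-B)** A place is regular on the whole chart as soon as it is regular on a subring `R₀`
over which the chart is integral (valuation rings are integrally closed). -/
theorem hcen_of_isIntegral (R₀ : Subring B) (hint : ∀ b : B, IsIntegral R₀ b)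
    (h₀ : ∀ r ∈ R₀, resChart res₁ Hc.le₁ r ∈ v.toValuationSubring) :
    ∀ b : B, resChart res₁ Hc.le₁ b ∈ v.toValuationSubring := by
  intro b
  obtain ⟨P, hP, hPb⟩ := hint b
  refine Fermat.Agent.RED.DESC.PlaceExtend27.mem_of_monic_root v.toValuationSubring
    ((resChart res₁ Hc.le₁).comp R₀.subtype) (fun r => h₀ r r.2) ⟨P, hP, ?_⟩
  have h1 := Polynomial.hom_eval₂ P R₀.subtype (resChart res₁ Hc.le₁) b
  have h2 : Polynomial.eval₂ R₀.subtype b P = 0 := hPb
  rw [h2, map_zero] at h1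
  exact h1.symm

/-- **(55-B), `O[t]`-form**: the chart is an `O`-algebra, integral over `O[t]`; the place is regular at
the constants (`hconst`) and at `t` (`hreg`). -/
theorem hcen_of_isIntegral_adjoin {O : Type*} [CommRing O] [Algebra O B] (t : B)
    (hint : ∀ b : B, IsIntegral (Algebra.adjoin O {t}) b)
    (hconst : ∀ a : O, resChart res₁ Hc.le₁ (algebraMap O B a) ∈ v.toValuationSubring)
    (hreg : resChart res₁ Hc.le₁ t ∈ v.toValuationSubring) :
    ∀ b : B, resChart res₁ Hc.le₁ b ∈ v.toValuationSubring := by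
  apply hcen_of_isIntegral Hc res₁ v (Algebra.adjoin O {t}).toSubring
  · intro b
    exact hint b
  · intro r hr
    have hr' : r ∈ Algebra.adjoin O {t} := hr
    induction hr' using Algebra.adjoin_induction with
    | mem x hx =>
      rw [Set.mem_singleton_iff] at hx
      rw [hx]; exact hreg
    | algebraMap a => exact hconst a
    | add x y _ _ hx hy =>
      rw [map_add]; exact v.toValuationSubring.add_mem _ _ (hx ‹_›) (hy ‹_›)
    | mul x y _ _ hx hy =>
      rw [map_mul]; exact v.toValuationSubring.mul_mem _ _ (hx ‹_›) (hy ‹_›)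

end B

section C

variable {π : B} {O₁ O₂ : ValuationSubring F} (Hc : ChartHyp π O₁ O₂)
  (res₁ : ↥O₁ →+* k)

/-- **(55-C), kernel.**  If the first branch passes through `𝔫`, the kernel of the reduction of the
chart is contained in `𝔫`.  (`hres'` : `res₁` kills ONLY nonunits, i.e. `res₁` is the residue map of
`O₁` followed by a field embedding.) -/
theorem ker_resChart_le (hres' : ∀ z : ↥O₁, res₁ z = 0 → ¬ IsUnit z) {𝔫 : Ideal B}
    (hoff : ¬ Off π O₁ 𝔫) : RingHom.ker (resChart res₁ Hc.le₁) ≤ 𝔫 := by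
  intro b hb
  by_contra hbn
  apply hoff
  have hb0 : res₁ ⟨algebraMap B F b, Hc.le₁ b⟩ = 0 := (RingHom.mem_ker).1 hb
  have hnu := hres' _ hb0
  by_cases h0 : algebraMap B F b = 0
  · exact ⟨b, hbn, 0, O₁.zero_mem, by rw [h0, mul_zero]⟩
  · have hinv : (algebraMap B F b)⁻¹ ∉ O₁ := by
      intro hi
      apply hnu
      refine isUnit_iff_exists_inv.2 ⟨⟨(algebraMap B F b)⁻¹, hi⟩, ?_⟩
      exact Subtype.ext (mul_inv_cancel₀ h0)
    obtain ⟨c, hc, hbc⟩ := Hc.unif₁.unif _ (Hc.le₁ b) hinv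
    exact ⟨b, hbn, c, hc, hbc⟩

variable {K : ℕ} (hN : NodalChartHyp π O₁ O₂ K) (hres : ∀ z : ↥O₁, ¬ IsUnit z → res₁ z = 0)

include hres in
/-- **(55-C), non-vanishing.**  At a two-branch maximal ideal (a node) the reduction of the chart does
not vanish identically on `𝔫`: the numerator of the branch parameter `x`. -/
theorem exists_mem_resChart_ne_zero (𝔫 : Ideal B) [h𝔫 : 𝔫.IsMaximal]
    (h1 : ¬ Off π O₁ 𝔫) (h2 : ¬ Off π O₂ 𝔫) :
    ∃ b ∈ 𝔫, resChart res₁ hN.chart.le₁ b ≠ 0 := by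
  obtain ⟨H₁, H₂, x, y, D⟩ := hN.node 𝔫 h1 h2
  have hg := hN.chart.inj
  -- `x = b / d`
  obtain ⟨b, d, hd, hab, -⟩ := exists_frac (algebraMap B F) hg 𝔫 x
  have hxmax : x ∈ maximalIdeal (Localization.AtPrime 𝔫) := by
    rw [D.max_eq]
    exact Ideal.subset_span (by simp)
  have hbmem : b ∈ 𝔫 := by
    have h3 : algebraMap B (Localization.AtPrime 𝔫) b ∈ maximalIdeal (Localization.AtPrime 𝔫) := by
      rw [← hab]; exact Ideal.mul_mem_right _ _ hxmax
    exact (IsLocalization.AtPrime.to_map_mem_maximal_iff _ 𝔫 b).1 h3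
  refine ⟨b, hbmem, ?_⟩
  have hx0 : rhoLoc hg 𝔫 H₁ res₁ x ≠ 0 := by
    intro h0
    exact Fermat.Agent.T1B.Brandt96.x_not_mem D ((rhoLoc_eq_zero_iff hg 𝔫 H₁ res₁ hres x).1 h0)
  have hdu : IsUnit (algebraMap B (Localization.AtPrime 𝔫) d) :=
    IsLocalization.map_units (Localization.AtPrime 𝔫) (⟨d, hd⟩ : 𝔫.primeCompl)
  have hd0 : rhoLoc hg 𝔫 H₁ res₁ (algebraMap B (Localization.AtPrime 𝔫) d) ≠ 0 :=
    (hdu.map (rhoLoc hg 𝔫 H₁ res₁)).ne_zero
  have h3 := congrArg (rhoLoc hg 𝔫 H₁ res₁) hab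
  rw [map_mul, rhoLoc_algebraMap hg 𝔫 H₁ res₁ hN.chart.le₁ b] at h3
  rw [← h3]
  exact mul_ne_zero hx0 hd0

end C

section Hall

variable {π : B} {O₁ O₂ : ValuationSubring F} {K : ℕ} (hN : NodalChartHyp π O₁ O₂ K)
  (res₁ : ↥O₁ →+* k) (hres : ∀ z : ↥O₁, ¬ IsUnit z → res₁ z = 0)
  (hres' : ∀ z : ↥O₁, res₁ z = 0 → ¬ IsUnit z)

include hres hres' in
/-- **(55-C') `hall`** from an abstract supplier of places with prescribed centre (hypothesis `hex` in
the conclusion shape of `Brandt90.HallPlace.exists_place_centre` with `ρ := resChart res₁ _`). -/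
theorem hall_of_exists_place
    (hex : ∀ 𝔫 : Ideal B, 𝔫.IsMaximal → RingHom.ker (resChart res₁ hN.chart.le₁) ≤ 𝔫 →
      (∃ b ∈ 𝔫, resChart res₁ hN.chart.le₁ b ≠ 0) →
      ∃ v : Place κ k, (∀ b, resChart res₁ hN.chart.le₁ b ∈ v.toValuationSubring) ∧
        ∀ b, b ∈ 𝔫 ↔ resChart res₁ hN.chart.le₁ b = 0 ∨ 0 < v.ord (resChart res₁ hN.chart.le₁ b))
    (𝔫 : Ideal B) (h𝔫 : 𝔫.IsMaximal) (h1 : ¬ Off π O₁ 𝔫) (h2 : ¬ Off π O₂ 𝔫) :
    ∃ (v : Place κ k) (hcen : ∀ b, resChart res₁ hN.chart.le₁ b ∈ v.toValuationSubring),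
      cen hN.chart res₁ v hcen = 𝔫 := by
  haveI := h𝔫
  obtain ⟨v, hcen, hv⟩ := hex 𝔫 h𝔫 (ker_resChart_le hN.chart res₁ hres' h1)
    (exists_mem_resChart_ne_zero res₁ hN hres 𝔫 h1 h2)
  refine ⟨v, hcen, ?_⟩
  ext b
  rw [mem_cen_iff, hv b]

include hres hres' in
/-- **`hall`, unconditional**: `k / κ` has a separating transcendental generator, `κ` is algebraic
over `𝔽_p`.  Every two-branch maximal ideal of the chart is the centre of a place of `k / κ`. -/
theorem hall_of_isGen (p : ℕ) [Fact p.Prime] [Algebra (ZMod p) κ]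
    [Algebra.IsAlgebraic (ZMod p) κ] {xt : k} (hx : Fermat.Agent.X0.FF.IsGen κ xt)
    (hsep : Algebra.IsSeparable ↥(IntermediateField.adjoin κ {xt}) k)
    (𝔫 : Ideal B) (h𝔫 : 𝔫.IsMaximal) (h1 : ¬ Off π O₁ 𝔫) (h2 : ¬ Off π O₂ 𝔫) :
    ∃ (v : Place κ k) (hcen : ∀ b, resChart res₁ hN.chart.le₁ b ∈ v.toValuationSubring),
      cen hN.chart res₁ v hcen = 𝔫 := by
  haveI := h𝔫
  exact Fermat.Agent.T1B.Centre55.exists_place_centre_eq_of_isAlgebraic_zmod p hx hsep
    (resChart res₁ hN.chart.le₁) 𝔫 (ker_resChart_le hN.chart res₁ hres' h1)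
    (exists_mem_resChart_ne_zero res₁ hN hres 𝔫 h1 h2)

end Hall

end Fermat.Agent.T1B.Brandt55
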