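/-
Programme T1B (row 38 / S44), cell R2/BRANDT + R1, concrete W3 package: **THE FINAL GLUE**
(helper55, on helper96's `Brandt96/CentrePkg` and helper36's `Brandt36/MainFin`).

Setting of `CentrePkg`: one chart `B ⊂ F` of the nodal model (`hN : NodalChartHyp π O₁ O₂ K`), the
residue map `res₁ : O₁ →+* k` into the function field `k / κ` of the component `X₁`, the
place-indexed nodes `NodeIdx κ hN.chart res₁` (`vE e = e.1`), `Reg := HasCentre hN.chart res₁`, the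
auxiliary function `D := resChart res₁ _ h0` (`h0 * g0 = π ^ n`, `h0` a unit of `O₁`, of positive
order along `O₂`).

* (G1) `w3_aux`            : `∃ c ≠ 0`, `ord_{vE e} D = c` for all `e`, and `ord_v D = 0` at every
  place with a centre on the chart which is not a node place  [= `hDE` + `hDoff`];
* (G2) `brandtS_one_nodeIdx`, `hd_nodeIdx` : `Brandt36.brandtS_one_of_aux` / `hd_of_aux` plugged;
* (G3) `exists_nodeIdx_of_isGen` (`hall`), `nonempty_nodeIdx_of_isGen` : from a separating generator of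
  `k / κ`, unconditionally;
* (G4) `hasCentre_of_isIntegral_adjoin` : `Reg v` from `ord_v (t̄) ≥ 0` when the chart is integral over
  `O[t]`.
-/
import Mathlib
import Fermat.Agent.T1B.Brandt96.CentrePkg
import Fermat.Agent.T1B.Brandt55.AuxCentre
import Fermat.Agent.T1B.Brandt36.MainFin

set_option autoImplicit false
set_option linter.unusedSectionVars false
set_option linter.unusedVariables false
set_option linter.style.haveILetI false

namespace Fermat.Agent.T1B.Brandt55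

open AlgebraicCurve IsLocalRing Fermat.Agent.T1.Peu37.NodeClassGroup Fermat.Agent.T1B.Hol80
  Fermat.Agent.T1B.NodeNF37.Local Fermat.Agent.T1B.NodeNF37.UnifOrd Fermat.Agent.T1B.Brandt96

variable {B F : Type*} [CommRing B] [IsDomain B] [Field F] [Algebra B F]
variable {κ k : Type*} [Field κ] [Field k] [Algebra κ k]

section G1

variable [IsNoetherianRing B]
variable {π : B} {O₁ O₂ : ValuationSubring F} {K : ℕ} (hN : NodalChartHyp π O₁ O₂ K)
  (res₁ : ↥O₁ →+* k) (hres : ∀ z : ↥O₁, ¬ IsUnit z → res₁ z = 0)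
  (p : ℕ) [Fact p.Prime] [Algebra (ZMod p) κ] [Algebra.IsAlgebraic (ZMod p) κ]
  (hdeg : ∀ v : Place κ k, v.deg = 1)
  (hF : ∀ z : F, ∃ b₁ b₂ : B, b₂ ≠ 0 ∧ z * algebraMap B F b₂ = algebraMap B F b₁)
  (htop : IntermediateField.adjoin κ (Set.range res₁) = ⊤)

include hN hres p hdeg hF htop in
/-- **(G1) the auxiliary function of W3**: `hDE` and `hDoff` of `Brandt36.brandtS_one_of_aux` for
`vE := fun e => e.1`, `Reg := HasCentre`, `D := resChart res₁ _ h0`. -/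
theorem w3_aux [Nonempty (NodeIdx κ hN.chart res₁)] {h0 g0 : B} {n : ℕ}
    (hh : h0 * g0 = π ^ n) (hinv : (algebraMap B F h0)⁻¹ ∈ O₁)
    (hO₂ : ord O₂ (algebraMap B F π) (algebraMap B F h0) ≠ 0) :
    ∃ c : ℤ, c ≠ 0 ∧
      (∀ e : NodeIdx κ hN.chart res₁, e.1.ord (resChart res₁ hN.chart.le₁ h0) = c) ∧
      ∀ v : Place κ k, HasCentre hN.chart res₁ v →
        (¬ ∃ e : NodeIdx κ hN.chart res₁, e.1 = v) →
        v.ord (resChart res₁ hN.chart.le₁ h0) = 0 := by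
  obtain ⟨c, -, hc0, hce⟩ := exists_const_ord_node hN res₁ hres p hdeg hF htop hh hinv
  exact ⟨c, hc0.2 hO₂, hce, fun v hcen hv =>
    ord_resChart_eq_zero_of_off hN.chart res₁ v hcen hh hinv (off_of_not_exists v hcen hv)⟩

end G1

section G2

variable {π : B} {O₁ O₂ : ValuationSubring F} (Hc : ChartHyp π O₁ O₂)
  (res₁ : ↥O₁ →+* k) {p : ℕ}
variable {k' : Type*} [Field k'] [Algebra κ k']
  (αb βb : k →ₐ[κ] k') (hαb : αb.toRingHom.IsIntegral) (hβb : βb.toRingHom.IsIntegral)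
  (hfib : ∀ e : NodeIdx κ Hc res₁, {w : Place κ k' | w.restrictAlong αb hαb = e.1}.Finite)

/-- **(G2a) `B_S 𝟙 = n 𝟙`** for the place-indexed nodes, from the outputs `(c, hDE, hDoff)` of
`w3_aux` and the W4 facts `hQ`, `hReg`. -/
theorem brandtS_one_nodeIdx (n : ℤ)
    (hsum : ∀ e : NodeIdx κ Hc res₁,
      ∑ᶠ w ∈ {w : Place κ k' | w.restrictAlong αb hαb = e.1},
        (w.ramificationIndexAlong αb : ℤ) = n)
    (D : k) (c : ℤ) (hc : c ≠ 0)
    (hDE : ∀ e : NodeIdx κ Hc res₁, e.1.ord D = c)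
    (hDoff : ∀ v : Place κ k, HasCentre Hc res₁ v →
      (¬ ∃ e : NodeIdx κ Hc res₁, e.1 = v) → v.ord D = 0)
    (hQ : ∀ e : NodeIdx κ Hc res₁, ∀ w : Place κ k', w.restrictAlong αb hαb = e.1 →
      w.ord (βb D) = w.ord (αb D))
    (hReg : ∀ e : NodeIdx κ Hc res₁, ∀ w : Place κ k', w.restrictAlong αb hαb = e.1 →
      HasCentre Hc res₁ (w.restrictAlong βb hβb)) :
    Fermat.Agent.T1B.Brandt36.brandtS (fun e : NodeIdx κ Hc res₁ => e.1) p βb αb hβb hαb hfib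
      (fun _ => 1) = n • (fun _ => (1 : ZMod p)) :=
  Fermat.Agent.T1B.Brandt36.brandtS_one_of_aux αb βb hαb hβb hfib n hsum
    (HasCentre Hc res₁) D c hc hDE hDoff hQ hReg

/-- **(G2b) (d)**: every place over a node place maps to a node place under `β̄`. -/
theorem hd_nodeIdx (D : k) (c : ℤ) (hc : c ≠ 0)
    (hDE : ∀ e : NodeIdx κ Hc res₁, e.1.ord D = c)
    (hDoff : ∀ v : Place κ k, HasCentre Hc res₁ v →
      (¬ ∃ e : NodeIdx κ Hc res₁, e.1 = v) → v.ord D = 0)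
    (hQ : ∀ e : NodeIdx κ Hc res₁, ∀ w : Place κ k', w.restrictAlong αb hαb = e.1 →
      w.ord (βb D) = w.ord (αb D))
    (hReg : ∀ e : NodeIdx κ Hc res₁, ∀ w : Place κ k', w.restrictAlong αb hαb = e.1 →
      HasCentre Hc res₁ (w.restrictAlong βb hβb))
    (e : NodeIdx κ Hc res₁) (w : Place κ k') (hw : w.restrictAlong αb hαb = e.1) :
    ∃ e' : NodeIdx κ Hc res₁, e'.1 = w.restrictAlong βb hβb :=
  Fermat.Agent.T1B.Brandt36.hd_of_aux (vE := fun e : NodeIdx κ Hc res₁ => e.1) αb βb hαb hβb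
    (HasCentre Hc res₁) D c hc hDE hDoff hQ hReg e w hw

end G2

section G3

variable {π : B} {O₁ O₂ : ValuationSubring F} {K : ℕ} (hN : NodalChartHyp π O₁ O₂ K)
  (res₁ : ↥O₁ →+* k) (hres : ∀ z : ↥O₁, ¬ IsUnit z → res₁ z = 0)
  (hres' : ∀ z : ↥O₁, res₁ z = 0 → ¬ IsUnit z)
  {xt : k} (hx : Fermat.Agent.X0.FF.IsGen κ xt)
  (hsep : Algebra.IsSeparable ↥(IntermediateField.adjoin κ {xt}) k)

include hres hres' hx hsep in
/-- **(G3) `hall`**: every two-branch maximal ideal of the chart is a `nodeIdeal e`. -/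
theorem exists_nodeIdx_of_isGen (p : ℕ) [Fact p.Prime] [Algebra (ZMod p) κ]
    [Algebra.IsAlgebraic (ZMod p) κ] (𝔫 : Ideal B) (h𝔫 : 𝔫.IsMaximal) (h1 : ¬ Off π O₁ 𝔫)
    (h2 : ¬ Off π O₂ 𝔫) : ∃ e : NodeIdx κ hN.chart res₁, nodeIdeal e = 𝔫 := by
  obtain ⟨v, hcen, hc⟩ := hall_of_isGen hN res₁ hres hres' p hx hsep 𝔫 h𝔫 h1 h2
  exact ⟨⟨v, hcen, by rw [hc]; exact h2⟩, hc⟩

include hres hres' hx hsep in
/-- **(G3) `Nonempty ιE`** from ONE two-branch maximal ideal of the chart. -/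
theorem nonempty_nodeIdx_of_isGen (p : ℕ) [Fact p.Prime] [Algebra (ZMod p) κ]
    [Algebra.IsAlgebraic (ZMod p) κ]
    (hnode : ∃ 𝔫 : Ideal B, 𝔫.IsMaximal ∧ ¬ Off π O₁ 𝔫 ∧ ¬ Off π O₂ 𝔫) :
    Nonempty (NodeIdx κ hN.chart res₁) := by
  obtain ⟨𝔫, h𝔫, h1, h2⟩ := hnode
  obtain ⟨e, -⟩ := exists_nodeIdx_of_isGen hN res₁ hres hres' hx hsep p 𝔫 h𝔫 h1 h2
  exact ⟨e⟩

include hres hres' hx hsep in
/-- `hex` of `CentrePkg.exists_nodeIdx_of_hall` / `nonempty_nodeIdx`, discharged. -/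
theorem hex_of_isGen (p : ℕ) [Fact p.Prime] [Algebra (ZMod p) κ]
    [Algebra.IsAlgebraic (ZMod p) κ] (𝔫 : Ideal B) (h𝔫 : 𝔫.IsMaximal) (h1 : ¬ Off π O₁ 𝔫) (h2 : ¬ Off π O₂ 𝔫) :
    ∃ v : Place κ k, (∀ b, resChart res₁ hN.chart.le₁ b ∈ v.toValuationSubring) ∧
      ∀ b, b ∈ 𝔫 ↔ resChart res₁ hN.chart.le₁ b = 0 ∨
        0 < v.ord (resChart res₁ hN.chart.le₁ b) := by
  obtain ⟨v, hcen, hc⟩ := hall_of_isGen hN res₁ hres hres' p hx hsep 𝔫 h𝔫 h1 h2
  refine ⟨v, hcen, fun b => ?_⟩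
  rw [← hc, mem_cen_iff]

end G3

section G4

variable {π : B} {O₁ O₂ : ValuationSubring F} (Hc : ChartHyp π O₁ O₂)
  (res₁ : ↥O₁ →+* k) (v : Place κ k)

/-- **(G4) `Reg v` from `ord_v (t̄) ≥ 0`**: the chart is an `O`-algebra, integral over `O[t]`, and the
constants of `O` are regular at `v`. -/
theorem hasCentre_of_isIntegral_adjoin {O : Type*} [CommRing O] [Algebra O B] (t : B)
    (hint : ∀ b : B, IsIntegral (Algebra.adjoin O {t}) b)
    (hconst : ∀ a : O, resChart res₁ Hc.le₁ (algebraMap O B a) ∈ v.toValuationSubring)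
    (ht : 0 ≤ v.ord (resChart res₁ Hc.le₁ t) ∨ resChart res₁ Hc.le₁ t = 0) :
    HasCentre Hc res₁ v := by
  apply hcen_of_isIntegral_adjoin Hc res₁ v t hint hconst
  rcases ht with h | h
  · exact Fermat.Agent.X0.FF.mem_of_ord_nonneg v h
  · rw [h]; exact v.toValuationSubring.zero_mem

/-- `hconst` is automatic when the constants `O` map into the constants `κ` of `k`. -/
theorem hconst_of_algebraMap {O : Type*} [CommRing O] [Algebra O B]
    (hκ : ∀ a : O, ∃ c : κ, resChart res₁ Hc.le₁ (algebraMap O B a) = algebraMap κ k c) (a : O) :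
    resChart res₁ Hc.le₁ (algebraMap O B a) ∈ v.toValuationSubring := by
  obtain ⟨c, hc⟩ := hκ a
  rw [hc]
  exact v.algebraMap_mem' c

end G4

end Fermat.Agent.T1B.Brandt55
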