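/-
Programme T1B (row 38 / S44), cell R2/BRANDT + R1, concrete W3 package (helper55):
**LEVEL-INDEPENDENT (INTRINSIC) INDEX OF THE NODE PLACES** (helper36's design point, msg 11650).

`Brandt96.NodeIdx κ Hc res₁ = {v // TwoBranch Hc res₁ v}` depends on the chart (hence on the
number-field level `L`).  The places are the same at every level, because

  `twoBranch_iff` : `TwoBranch Hc res₁ v ↔ HasCentre Hc res₁ v ∧ ord_v (res₁ h0) ≠ 0`

(`h0` the vertical test element: `h0 * g0 = π ^ n`, unit of `O₁`, positive order along `O₂`), and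
`HasCentre` is `ord_v (t̄) ≥ 0` (`W3Glue.hasCentre_of_isIntegral_adjoin`).  So one may take the intrinsic
index `ι := {v // P v}`, `P v := RegT v ∧ ord_v D̄ ≠ 0`, and feed every level with the families below.

* `twoBranch_iff`, `twoBranch_iff_of_reg` (with `Reg v ↔ HasCentre v`, `D = resChart res₁ _ h0`);
* for ANY predicate `P` with `hP : ∀ v, P v ↔ TwoBranch Hc res₁ v`: `toNodeIdx`, `nodeIdxEquiv`,
  the families `idealP` (`= 𝔪`), `idealP_isMaximal`, `idealP_not_off₁/₂`, `idealP_H₁/H₂`, `idealP_HP`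
  (`NodePlaceW`, binder shape of `R1Asm2.rho_hub`), `exists_idealP_eq` (`hall`), `nonempty_P`,
  `w3_aux_P` (`hDE`, `hDoff` for `vE := Subtype.val`).
-/
import Mathlib
import Fermat.Agent.T1B.Brandt55.W3Glue

set_option autoImplicit false
set_option linter.unusedSectionVars false
set_option linter.unusedVariables false
set_option linter.style.haveILetI false

namespace Fermat.Agent.T1B.Brandt55

open AlgebraicCurve IsLocalRing Fermat.Agent.T1.Peu37.NodeClassGroup Fermat.Agent.T1B.Hol80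
  Fermat.Agent.T1B.NodeNF37.Local Fermat.Agent.T1B.NodeNF37.UnifOrd Fermat.Agent.T1B.Brandt96

variable {B F : Type*} [CommRing B] [IsDomain B] [Field F] [Algebra B F]
variable {κ k : Type*} [Field κ] [Field k] [Algebra κ k]

section Iff

variable [IsNoetherianRing B]
variable {π : B} {O₁ O₂ : ValuationSubring F} {K : ℕ} (hN : NodalChartHyp π O₁ O₂ K)
  (res₁ : ↥O₁ →+* k) (hres : ∀ z : ↥O₁, ¬ IsUnit z → res₁ z = 0)
  (p : ℕ) [Fact p.Prime] [Algebra (ZMod p) κ] [Algebra.IsAlgebraic (ZMod p) κ]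
  (hdeg : ∀ v : Place κ k, v.deg = 1)
  (hF : ∀ z : F, ∃ b₁ b₂ : B, b₂ ≠ 0 ∧ z * algebraMap B F b₂ = algebraMap B F b₁)
  (htop : IntermediateField.adjoin κ (Set.range res₁) = ⊤)

include hN hres p hdeg hF htop in
/-- **The node places of the chart are the zeros of the auxiliary function on the chart.** -/
theorem twoBranch_iff {h0 g0 : B} {n : ℕ} (hh : h0 * g0 = π ^ n)
    (hinv : (algebraMap B F h0)⁻¹ ∈ O₁)
    (hO₂ : ord O₂ (algebraMap B F π) (algebraMap B F h0) ≠ 0) (v : Place κ k) :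
    TwoBranch hN.chart res₁ v ↔
      (HasCentre hN.chart res₁ v ∧ v.ord (resChart res₁ hN.chart.le₁ h0) ≠ 0) := by
  constructor
  · rintro ⟨hcen, hoff⟩
    refine ⟨hcen, ?_⟩
    let e : NodeIdx κ hN.chart res₁ := ⟨v, hcen, hoff⟩
    haveI : Nonempty (NodeIdx κ hN.chart res₁) := ⟨e⟩
    obtain ⟨c, hc, hDE, -⟩ := w3_aux hN res₁ hres p hdeg hF htop hh hinv hO₂
    have := hDE e
    show v.ord _ ≠ 0
    rw [show v = e.1 from rfl, this]
    exact hc
  · rintro ⟨hcen, hord⟩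
    exact ⟨hcen, fun hoff =>
      hord (ord_resChart_eq_zero_of_off hN.chart res₁ v hcen hh hinv hoff)⟩

include hN hres p hdeg hF htop in
/-- `twoBranch_iff` with a regularity predicate `Reg` (e.g. `RegT`: `t̄ ∈ O_v`) equivalent to
`HasCentre` and the auxiliary function given as an element `D` of `k`. -/
theorem twoBranch_iff_of_reg {h0 g0 : B} {n : ℕ} (hh : h0 * g0 = π ^ n)
    (hinv : (algebraMap B F h0)⁻¹ ∈ O₁)
    (hO₂ : ord O₂ (algebraMap B F π) (algebraMap B F h0) ≠ 0)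
    {Reg : Place κ k → Prop} (hReg : ∀ v, Reg v ↔ HasCentre hN.chart res₁ v)
    {D : k} (hD : resChart res₁ hN.chart.le₁ h0 = D) (v : Place κ k) :
    (Reg v ∧ v.ord D ≠ 0) ↔ TwoBranch hN.chart res₁ v := by
  rw [twoBranch_iff hN res₁ hres p hdeg hF htop hh hinv hO₂ v, hReg v, hD]

end Iff

section Family

variable {π : B} {O₁ O₂ : ValuationSubring F} (Hc : ChartHyp π O₁ O₂) (res₁ : ↥O₁ →+* k)
variable {P : Place κ k → Prop} (hP : ∀ v : Place κ k, P v ↔ TwoBranch Hc res₁ v)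

/-- An element of the intrinsic index, as a node place of the chart. -/
def toNodeIdx (e : {v : Place κ k // P v}) : NodeIdx κ Hc res₁ := ⟨e.1, (hP e.1).1 e.2⟩

@[simp] theorem toNodeIdx_val (e : {v : Place κ k // P v}) : (toNodeIdx Hc res₁ hP e).1 = e.1 := rfl

/-- The intrinsic index is in bijection with the node places of the chart. -/
def nodeIdxEquiv : {v : Place κ k // P v} ≃ NodeIdx κ Hc res₁ where
  toFun := toNodeIdx Hc res₁ hP
  invFun e := ⟨e.1, (hP e.1).2 e.2⟩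
  left_inv _ := rfl
  right_inv _ := rfl

/-- The node of the chart under an element of the intrinsic index (`= 𝔪 e`). -/
noncomputable abbrev idealP (e : {v : Place κ k // P v}) : Ideal B :=
  nodeIdeal (toNodeIdx Hc res₁ hP e)

theorem mem_idealP_iff (e : {v : Place κ k // P v}) (b : B) : b ∈ idealP Hc res₁ hP e ↔
    resChart res₁ Hc.le₁ b = 0 ∨ 0 < e.1.ord (resChart res₁ Hc.le₁ b) :=
  mem_nodeIdeal_iff (toNodeIdx Hc res₁ hP e) b

theorem idealP_isMaximal (p : ℕ) [Fact p.Prime] [Algebra (ZMod p) κ]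
    [Algebra.IsAlgebraic (ZMod p) κ] (hdeg : ∀ v : Place κ k, v.deg = 1)
    (e : {v : Place κ k // P v}) : (idealP Hc res₁ hP e).IsMaximal :=
  nodeIdeal_isMaximal p hdeg (toNodeIdx Hc res₁ hP e)

theorem idealP_not_off₂ (e : {v : Place κ k // P v}) : ¬ Off π O₂ (idealP Hc res₁ hP e) :=
  nodeIdeal_not_off₂ (toNodeIdx Hc res₁ hP e)

theorem idealP_not_off₁ (hres : ∀ z : ↥O₁, ¬ IsUnit z → res₁ z = 0)
    (e : {v : Place κ k // P v}) : ¬ Off π O₁ (idealP Hc res₁ hP e) :=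
  nodeIdeal_not_off₁ hres (toNodeIdx Hc res₁ hP e)

theorem idealP_H₁ (hres : ∀ z : ↥O₁, ¬ IsUnit z → res₁ z = 0) (e : {v : Place κ k // P v}) :
    BranchHyp (algebraMap B F) (idealP Hc res₁ hP e) O₁ π :=
  nodeH₁ hres (toNodeIdx Hc res₁ hP e)

theorem idealP_H₂ (e : {v : Place κ k // P v}) :
    BranchHyp (algebraMap B F) (idealP Hc res₁ hP e) O₂ π :=
  nodeH₂ (toNodeIdx Hc res₁ hP e)

include hP in
/-- A place of the chart which is not in the intrinsic index has the second branch off its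
centre. -/
theorem off_of_not_P (v : Place κ k) (hcen : HasCentre Hc res₁ v) (hv : ¬ P v) :
    Off π O₂ (cen Hc res₁ v hcen) := by
  apply off_of_not_exists v hcen
  rintro ⟨e, he⟩
  apply hv
  rw [hP v, ← he]
  exact e.2

end Family

section Package

variable [IsNoetherianRing B]
variable {π : B} {O₁ O₂ : ValuationSubring F} {K : ℕ} (hN : NodalChartHyp π O₁ O₂ K)
  (res₁ : ↥O₁ →+* k) (hres : ∀ z : ↥O₁, ¬ IsUnit z → res₁ z = 0)
  (p : ℕ) [Fact p.Prime] [Algebra (ZMod p) κ] [Algebra.IsAlgebraic (ZMod p) κ]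
  (hdeg : ∀ v : Place κ k, v.deg = 1)
  (hF : ∀ z : F, ∃ b₁ b₂ : B, b₂ ≠ 0 ∧ z * algebraMap B F b₂ = algebraMap B F b₁)
  (htop : IntermediateField.adjoin κ (Set.range res₁) = ⊤)
  {P : Place κ k → Prop} (hP : ∀ v : Place κ k, P v ↔ TwoBranch hN.chart res₁ v)

include hN hres p hdeg hF htop hP in
/-- **`HP` for the intrinsic index** (binder shape of `R1Asm2.rho_hub`, `vE := Subtype.val`,
`𝔪 := idealP`, `H₁ := idealP_H₁`). -/
theorem idealP_HP (e : {v : Place κ k // P v}) :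
    NodePlaceW (PP (algebraMap B F) hN.chart.inj (idealP hN.chart res₁ hP e)
        (idealP_H₁ hN.chart res₁ hP hres e))
      (res₁.comp (toO O₁ (iota (algebraMap B F) hN.chart.inj (idealP hN.chart res₁ hP e))
        (iota_mem (algebraMap B F) hN.chart.inj (idealP hN.chart res₁ hP e)
          (idealP_H₁ hN.chart res₁ hP hres e)))) e.1 :=
  nodeHP hN res₁ hres p hdeg hF htop (toNodeIdx hN.chart res₁ hP e)

include hN hres p hdeg hF htop hP in
/-- **(G1) for the intrinsic index**: `hDE` + `hDoff` with `vE := Subtype.val`. -/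
theorem w3_aux_P [Nonempty {v : Place κ k // P v}] {h0 g0 : B} {n : ℕ}
    (hh : h0 * g0 = π ^ n) (hinv : (algebraMap B F h0)⁻¹ ∈ O₁)
    (hO₂ : ord O₂ (algebraMap B F π) (algebraMap B F h0) ≠ 0) :
    ∃ c : ℤ, c ≠ 0 ∧
      (∀ e : {v : Place κ k // P v}, e.1.ord (resChart res₁ hN.chart.le₁ h0) = c) ∧
      ∀ v : Place κ k, HasCentre hN.chart res₁ v →
        (¬ ∃ e : {v : Place κ k // P v}, e.1 = v) →
        v.ord (resChart res₁ hN.chart.le₁ h0) = 0 := by
  haveI : Nonempty (NodeIdx κ hN.chart res₁) :=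
    (nodeIdxEquiv hN.chart res₁ hP).nonempty_congr.1 inferInstance
  obtain ⟨c, hc, hDE, hDoff⟩ := w3_aux hN res₁ hres p hdeg hF htop hh hinv hO₂
  refine ⟨c, hc, fun e => hDE (toNodeIdx hN.chart res₁ hP e), fun v hcen hv => ?_⟩
  apply hDoff v hcen
  rintro ⟨e, he⟩
  exact hv ⟨(nodeIdxEquiv hN.chart res₁ hP).symm e, he⟩

end Package

section Hall

variable {π : B} {O₁ O₂ : ValuationSubring F} {K : ℕ} (hN : NodalChartHyp π O₁ O₂ K)
  (res₁ : ↥O₁ →+* k) (hres : ∀ z : ↥O₁, ¬ IsUnit z → res₁ z = 0)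
  (hres' : ∀ z : ↥O₁, res₁ z = 0 → ¬ IsUnit z)
  {xt : k} (hx : Fermat.Agent.X0.FF.IsGen κ xt)
  (hsep : Algebra.IsSeparable ↥(IntermediateField.adjoin κ {xt}) k)
  {P : Place κ k → Prop} (hP : ∀ v : Place κ k, P v ↔ TwoBranch hN.chart res₁ v)

include hN hres hres' hx hsep hP in
/-- **`hall` for the intrinsic index**: every two-branch maximal ideal of the chart is an
`idealP e`. -/
theorem exists_idealP_eq (p : ℕ) [Fact p.Prime] [Algebra (ZMod p) κ]
    [Algebra.IsAlgebraic (ZMod p) κ] (𝔫 : Ideal B) (h𝔫 : 𝔫.IsMaximal) (h1 : ¬ Off π O₁ 𝔫)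
    (h2 : ¬ Off π O₂ 𝔫) : ∃ e : {v : Place κ k // P v}, idealP hN.chart res₁ hP e = 𝔫 := by
  obtain ⟨e, he⟩ := exists_nodeIdx_of_isGen hN res₁ hres hres' hx hsep p 𝔫 h𝔫 h1 h2
  exact ⟨(nodeIdxEquiv hN.chart res₁ hP).symm e, he⟩

include hN hres hres' hx hsep hP in
/-- **`Nonempty ι`** for the intrinsic index, from ONE two-branch maximal ideal of the chart. -/
theorem nonempty_P (p : ℕ) [Fact p.Prime] [Algebra (ZMod p) κ]
    [Algebra.IsAlgebraic (ZMod p) κ]
    (hnode : ∃ 𝔫 : Ideal B, 𝔫.IsMaximal ∧ ¬ Off π O₁ 𝔫 ∧ ¬ Off π O₂ 𝔫) :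
    Nonempty {v : Place κ k // P v} := by
  obtain ⟨𝔫, h𝔫, h1, h2⟩ := hnode
  obtain ⟨e, -⟩ := exists_idealP_eq hN res₁ hres hres' hx hsep hP p 𝔫 h𝔫 h1 h2
  exact ⟨e⟩

end Hall

end Fermat.Agent.T1B.Brandt55
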