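/-
Programme T1B (S44), cells R1/R2 (NODE PLACES over `κ̄`), helper55: the `k₁`-side facts of the concrete
W3 package (`Brandt55/W3Glue`, `Brandt55/Intrinsic`, `Brandt96/CentrePkg`), at

  `κ̄ = Kap A = ResidueField ↥A` (`A : ValuationSubring ℚ̄` over `p`),  `k₁ = ↥(FullC κ̄ M')`,  `p ∤ M'`,
  `xt := CharPX0.jC κ̄ M' = ⟨jqModC κ̄, jqModC_mem_full ..⟩`  (the reduction of `j`).

* instances from `hA : A.LiesOverPrime p`: `charP_kap`, `algebraZModKap` (a `def`, reducible),
  `isAlgebraic_zmod_kap55` (for ANY `Algebra (ZMod p) (Kap A)` instance);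
* `isGen_jC_kap`, `isSeparable_jC_kap`, `deg_eq_one_kap`;
* **`k1_facts`** : `IsGen κ̄ xt ∧ Algebra.IsSeparable ↥κ̄⟮xt⟯ k₁ ∧ ∀ v, v.deg = 1`.
-/
import Mathlib
import Fermat.Agent.T1B.Hecke87.CharPX0
import Fermat.Agent.T1B.Hecke87.HPDCharP
import Fermat.Agent.T1B.Hecke3.DeltaX0
import Fermat.Agent.T1B.Unif77.KapAlg
import Fermat.Agent.ES.KRON.KronInst10

set_option autoImplicit false
set_option linter.unusedSectionVars false
set_option linter.unusedVariables false
set_option linter.style.haveILetI false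

noncomputable section

namespace Fermat.Agent.T1B.Brandt55

open AlgebraicCurve ModularCurve IntermediateField
open Fermat.Agent.X0 Fermat.Agent.T1B.Hecke3 Fermat.Agent.T1B.Hecke87

variable (A : ValuationSubring (AlgebraicClosure ℚ)) {p : ℕ}

/-- `κ̄ = Kap A` is algebraically closed. -/
theorem isAlgClosed_kap : IsAlgClosed (Kap A) :=
  Fermat.Agent.ES.KRON.KronInst10.isAlgClosed_residueField A

/-- `κ̄ = Kap A` has characteristic `p` when `A` lies over `p`. -/
theorem charP_kap (hp : p.Prime) (hA : A.LiesOverPrime p) : CharP (Kap A) p :=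
  Fermat.Agent.ES.KRON.KronInst10.charP_residueField A hp hA

/-- the `𝔽_p`-algebra structure of `κ̄` (the canonical one of a ring of characteristic `p`). -/
@[reducible] def algebraZModKap (hp : p.Prime) (hA : A.LiesOverPrime p) :
    Algebra (ZMod p) (Kap A) :=
  haveI := charP_kap A hp hA
  ZMod.algebra _ p

/-- `κ̄` is algebraic over `𝔽_p`, for any `𝔽_p`-algebra structure. -/
theorem isAlgebraic_zmod_kap55 (hp : p.Prime) [Algebra (ZMod p) (Kap A)] :
    Algebra.IsAlgebraic (ZMod p) (Kap A) :=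
  haveI : Fact p.Prime := ⟨hp⟩
  Fermat.Agent.T1B.Unif77.isAlgebraic_zmod_kap A p

variable (M' : ℕ) [NeZero M']

/-- `hx`: the reduction of `j` generates `k₁ = FullC κ̄ M'`. -/
theorem isGen_jC_kap (hp : p.Prime) (hA : A.LiesOverPrime p) (hpM' : ¬ p ∣ M') :
    FF.IsGen (Kap A) (CharPX0.jC (Kap A) M') :=
  haveI : Fact p.Prime := ⟨hp⟩
  haveI := charP_kap A hp hA
  CharPX0.isGen_jC (Kap A) p M' hpM'

/-- `hsep`: `k₁` is separable over `κ̄(j̄)`. -/
theorem isSeparable_jC_kap (hp : p.Prime) (hA : A.LiesOverPrime p) (hpM' : ¬ p ∣ M') :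
    Algebra.IsSeparable
      ↥(IntermediateField.adjoin (Kap A)
        {(CharPX0.jC (Kap A) M' : ↥(modularFunctionFieldFullC (Kap A) M'))})
      ↥(modularFunctionFieldFullC (Kap A) M') := by
  haveI : Fact p.Prime := ⟨hp⟩
  haveI := charP_kap A hp hA
  haveI := isAlgClosed_kap A
  have hgen : FF.IsGen (Kap A) (CharPX0.jC (Kap A) M') := CharPX0.isGen_jC (Kap A) p M' hpM'
  have hcop : IsCoprime ((CharPX0.jC (Kap A) M' : ↥(modularFunctionFieldFullC (Kap A) M')) :
      LaurentSeries (Kap A)).order (p : ℤ) := by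
    rw [CharPX0.coe_jC, Fermat.Agent.IG.AN.ModPoly3.order_jqModC (Kap A)]
    exact (isCoprime_one_left (x := (p : ℤ))).neg_left
  exact HPDCharP.isSeparable_of_order p (modularFunctionFieldFullC (Kap A) M') hgen hcop

/-- `hdeg`: all places of `k₁` have degree one. -/
theorem deg_eq_one_kap (hp : p.Prime) (hA : A.LiesOverPrime p) (hpM' : ¬ p ∣ M')
    (v : Place (Kap A) ↥(modularFunctionFieldFullC (Kap A) M')) : v.deg = 1 :=
  haveI := isAlgClosed_kap A
  FF.deg_eq_one (isGen_jC_kap A M' hp hA hpM') v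

/-- **The `k₁`-side facts of the concrete W3 package.** -/
theorem k1_facts (hp : p.Prime) (hA : A.LiesOverPrime p) (hpM' : ¬ p ∣ M') :
    FF.IsGen (Kap A) (CharPX0.jC (Kap A) M') ∧
    Algebra.IsSeparable
      ↥(IntermediateField.adjoin (Kap A)
        {(CharPX0.jC (Kap A) M' : ↥(modularFunctionFieldFullC (Kap A) M'))})
      ↥(modularFunctionFieldFullC (Kap A) M') ∧
    ∀ v : Place (Kap A) ↥(modularFunctionFieldFullC (Kap A) M'), v.deg = 1 :=
  ⟨isGen_jC_kap A M' hp hA hpM', isSeparable_jC_kap A M' hp hA hpM',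
    deg_eq_one_kap A M' hp hA hpM'⟩

end Fermat.Agent.T1B.Brandt55
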