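/-
Programme T1B (row 38 / S44), cell R2/BRANDT, last mile **R2-FINAL**, leaf **hReg-K** (helper55,
assigned by helper36 msg 11967): at the hub chart `B0 A q ht ⊂ F = FK (M' * q) K` of the nodal model
(`ES/N34/ModelDefs9`, vocabulary of helper77's `Unif77/Concrete(+Aux)`), with the concrete residue map
`res₁ := Unif77.res1K M' q hπ hE H hrange : O1 →+* k₁ = FullC κ̄ M'`, `κ̄ = Kap A`:

  **`RegT v ↔ HasCentre chart res₁ v`**   (`RegT v` : `t̄ = tq κ̄ n e ∈ O_v`, `= Brandt14.RegK` for `(4, 8)`).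

* `coe_res1K_of_coe_tq`, `resChart_tB0` : the residue of the Hauptmodul `t_N` is `t̄ = tq κ̄ n e`;
* `hasCentre_of_regT` (⇒) : `B0` is integral over `(A ∩ K)[t_N]` (`Unif77.isIntegral_B0`), constants go
  to constants (`Unif77.exists_resChart_const`), so `Brandt55.hcen_of_isIntegral_adjoin` applies;
* `regT_of_hasCentre` (⇐) : `t_N ∈ B0`;
* **`regT_iff_hasCentre`**, and the consequence through `Brandt55.twoBranch_iff_of_reg`:
* **`hP_hub`** : `(RegT v ∧ ord_v D̄ ≠ 0) ↔ TwoBranch hN.chart res₁ v` — the hypothesis `hP` of the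
  intrinsic families `Brandt55/Intrinsic` for `ιR2 := {v // RegT v ∧ v.ord D̄ ≠ 0}`, from the test-element
  inputs `h0, g0, hh, hinv, hO₂, hD` (leaf H0-HUB, helper79) and `hN` (helper37), `hL` (ES/N34);
* `w3_aux_hub` : `hDE` + `hDoff` for `vE := Subtype.val : ιR2 → Place κ̄ k₁`, `Reg := RegT`, `D := D̄`.
-/
import Mathlib
import Fermat.Agent.T1B.Unif77.ConcreteAux
import Fermat.Agent.T1B.Brandt55.Intrinsic
import Fermat.Agent.T1B.Brandt55.K1Facts
import Fermat.Agent.T1B.TorusInst21.OrdAbs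
import Fermat.Agent.T1B.AuxUnit29.RegBeta

set_option autoImplicit false
set_option linter.unusedSectionVars false
set_option linter.unusedVariables false
set_option linter.style.haveILetI false

noncomputable section

open HahnSeries ModularCurve IntermediateField AlgebraicCurve

namespace Fermat.Agent.T1B.Brandt55

open Fermat.Agent.RED.Interface4 Fermat.Agent.RED.PUR.GaussGen8
open Fermat.Agent.RED.PUR.ChartGeneric22
open Fermat.Agent.RED.DESC.PlaceExtend27
open Fermat.Agent.RED.BASE.EtaQuot12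
open Fermat.Agent.ES.N34.ModelDefs9 Fermat.Agent.ES.N34.NumData13
open Fermat.Agent.T1B.Hecke3 Fermat.Agent.T1B.GaussW77 Fermat.Agent.T1B.Hol80
open Fermat.Agent.T1B.Brandt96 Fermat.Agent.T1B.Unif77
open Fermat.Agent.T1B.NodeNF37.UnifOrd
open scoped Fermat.Agent.T1.Assembly41.FastInst

/- speed: the canonical `Algebra κ ↥S` instance of an intermediate field, tried first. -/
attribute [local instance 5000] SubalgebraClass.toAlgebra

variable {A : ValuationSubring Qbar} {K : IntermediateField ℚ Qbar}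
variable (M' q : ℕ) [NeZero M'] [NeZero q] {π : ↥(AK A K)}
variable (hπ : IsUnif (AK A K) π) (hE : FK (M' * q) K ≤ fracField (AK A K))
  (H : ∀ f : Fbar (M' * q), f ≠ 0 → Normalisable A (coeHom (M' * q) f))
  (hrange : ∀ x : ↥(gaussVal A (coeHom (M' * q)) H),
    gaussResV A (coeHom (M' * q)) H x ∈ modularFunctionFieldFullC (Kap A) M')

variable {n e : ℕ} [NeZero n]

/-- The residue along the branch at `∞` of an element with `q`-expansion `tq K n e` is `tq κ̄ n e`. -/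
theorem coe_res1K_of_coe_tq (z : ↥(O1 M' q hπ hE))
    (hz : ((z : ↥(FK (M' * q) K)) : LaurentSeries K) = tq (↥K) n e) :
    ((res1K M' q hπ hE H hrange z : ↥(modularFunctionFieldFullC (Kap A) M')) :
      LaurentSeries (Kap A)) = tq (Kap A) n e := by
  show gaussResV A (coeHom (M' * q)) H _ = _
  rw [gaussResV_apply]
  apply Fermat.Agent.T1B.TorusInst21.gaussRes_of_eq_tq
  show ((baseChangeHom (M' * q) K (z : ↥(FK (M' * q) K)) : Fbar (M' * q)) : LaurentSeries Qbar) = _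
  rw [coe_baseChangeHom, hz, coeffMap_tq]

variable (ht : tq (↥K) n e ∈ FK M' K)

/-- **The residue of the Hauptmodul `t_N` of chart `0` is `t̄`.** -/
theorem resChart_tB0
    (hle : ∀ b : ↥(B0 A q ht), algebraMap ↥(B0 A q ht) ↥(FK (M' * q) K) b ∈ O1 M' q hπ hE)
    (htκ : tq (Kap A) n e ∈ modularFunctionFieldFullC (Kap A) M') :
    resChart (res1K M' q hπ hE H hrange) hle (tB0 (A := A) M' q ht) =
      (⟨tq (Kap A) n e, htκ⟩ : ↥(modularFunctionFieldFullC (Kap A) M')) := by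
  apply Subtype.ext
  show ((res1K M' q hπ hE H hrange _ : ↥(modularFunctionFieldFullC (Kap A) M')) :
      LaurentSeries (Kap A)) = tq (Kap A) n e
  apply coe_res1K_of_coe_tq
  show ((tN q ht : ↥(FK (M' * q) K)) : LaurentSeries K) = _
  exact coe_tN q ht

section Iff

variable (Hc : ChartHyp (algebraMap ↥(AK A K) ↥(B0 A q ht) π) (O1 M' q hπ hE) (O2 M' q hπ hE))
  (htκ : tq (Kap A) n e ∈ modularFunctionFieldFullC (Kap A) M')
  (v : Place (Kap A) ↥(modularFunctionFieldFullC (Kap A) M'))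

/-- (⇐) a place with a centre on chart `0` is regular for `t̄`. -/
theorem regT_of_hasCentre (hcen : HasCentre Hc (res1K M' q hπ hE H hrange) v) :
    Fermat.Agent.T1B.AuxUnit29.RegT A M' htκ v := by
  have h := hcen (tB0 (A := A) M' q ht)
  rw [resChart_tB0 M' q hπ hE H hrange ht Hc.le₁ htκ] at h
  exact h

/-- (⇒) a place at which `t̄` is regular has a centre on chart `0`. -/
theorem hasCentre_of_regT (hreg : Fermat.Agent.T1B.AuxUnit29.RegT A M' htκ v) :
    HasCentre Hc (res1K M' q hπ hE H hrange) v := by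
  apply hcen_of_isIntegral_adjoin Hc (res1K M' q hπ hE H hrange) v (tB0 (A := A) M' q ht)
    (isIntegral_B0 M' q ht)
  · exact hconst_of_algebraMap Hc (res1K M' q hπ hE H hrange) v
      (exists_resChart_const M' q hπ hE H hrange ht Hc.le₁)
  · rw [resChart_tB0 M' q hπ hE H hrange ht Hc.le₁ htκ]
    exact hreg

/-- **hReg-K**: `t̄` is regular at `v` iff `v` has a centre on chart `0` of the hub. -/
theorem regT_iff_hasCentre :
    Fermat.Agent.T1B.AuxUnit29.RegT A M' htκ v ↔ HasCentre Hc (res1K M' q hπ hE H hrange) v :=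
  ⟨hasCentre_of_regT M' q hπ hE H hrange ht Hc htκ v,
    regT_of_hasCentre M' q hπ hE H hrange ht Hc htκ v⟩

end Iff

section Hub

variable (hL : NodalNumData ↥(AK A K) ↥K ↥(FK (M' * q) K) π (tN q ht) (B0 A q ht) (B1 A q ht)
      (O1 M' q hπ hE) (O2 M' q hπ hE))
  {Kth : ℕ} (hN : NodalChartHyp (algebraMap ↥(AK A K) ↥(B0 A q ht) π) (O1 M' q hπ hE)
      (O2 M' q hπ hE) Kth)
  (hq : q.Prime) (hA : A.LiesOverPrime q) (hqM' : ¬ q ∣ M')
  (htκ : tq (Kap A) n e ∈ modularFunctionFieldFullC (Kap A) M')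

include hL hq hA hqM' in
/-- **`hP` at the hub**: the intrinsic predicate `RegT v ∧ ord_v D̄ ≠ 0` cuts out the node places of
chart `0` (test-element inputs `h0, g0, hh, hinv, hO₂, hD` = leaf H0-HUB). -/
theorem hP_hub {h0 g0 : ↥(B0 A q ht)} {m : ℕ}
    (hh : h0 * g0 = (algebraMap ↥(AK A K) ↥(B0 A q ht) π) ^ m)
    (hinv : (algebraMap ↥(B0 A q ht) ↥(FK (M' * q) K) h0)⁻¹ ∈ O1 M' q hπ hE)
    (hO₂ : ord (O2 M' q hπ hE)
      (algebraMap ↥(B0 A q ht) ↥(FK (M' * q) K) (algebraMap ↥(AK A K) ↥(B0 A q ht) π))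
      (algebraMap ↥(B0 A q ht) ↥(FK (M' * q) K) h0) ≠ 0)
    {D : ↥(modularFunctionFieldFullC (Kap A) M')}
    (hD : resChart (res1K M' q hπ hE H hrange) hN.chart.le₁ h0 = D)
    (v : Place (Kap A) ↥(modularFunctionFieldFullC (Kap A) M')) :
    (Fermat.Agent.T1B.AuxUnit29.RegT A M' htκ v ∧ v.ord D ≠ 0) ↔
      TwoBranch hN.chart (res1K M' q hπ hE H hrange) v := by
  haveI := hL.noeth0
  haveI : Fact q.Prime := ⟨hq⟩
  letI : Algebra (ZMod q) (Kap A) := algebraZModKap A hq hA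
  haveI : Algebra.IsAlgebraic (ZMod q) (Kap A) := isAlgebraic_zmod_kap55 A hq
  exact twoBranch_iff_of_reg hN (res1K M' q hπ hE H hrange)
    (res1K_eq_zero_of_not_isUnit M' q hπ hE H hrange) q
    (deg_eq_one_kap A M' hq hA hqM') (frac_B0 M' q hπ hE ht hL)
    (adjoin_range_res1K M' q hπ hE H hrange) hh hinv hO₂
    (regT_iff_hasCentre M' q hπ hE H hrange ht hN.chart htκ) hD v

include hL hq hA hqM' in
/-- **`hDE` at the hub for the intrinsic index** `ιR2 := {v // RegT v ∧ ord_v D̄ ≠ 0}`,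
`vE := Subtype.val` (`hnode` and `hDoff` hold by definition of `ιR2`). -/
theorem hDE_hub {h0 g0 : ↥(B0 A q ht)} {m : ℕ}
    (hh : h0 * g0 = (algebraMap ↥(AK A K) ↥(B0 A q ht) π) ^ m)
    (hinv : (algebraMap ↥(B0 A q ht) ↥(FK (M' * q) K) h0)⁻¹ ∈ O1 M' q hπ hE)
    (hO₂ : ord (O2 M' q hπ hE)
      (algebraMap ↥(B0 A q ht) ↥(FK (M' * q) K) (algebraMap ↥(AK A K) ↥(B0 A q ht) π))
      (algebraMap ↥(B0 A q ht) ↥(FK (M' * q) K) h0) ≠ 0)
    {D : ↥(modularFunctionFieldFullC (Kap A) M')}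
    (hD : resChart (res1K M' q hπ hE H hrange) hN.chart.le₁ h0 = D) :
    ∃ c : ℤ, c ≠ 0 ∧
      ∀ e : {v : Place (Kap A) ↥(modularFunctionFieldFullC (Kap A) M') //
          Fermat.Agent.T1B.AuxUnit29.RegT A M' htκ v ∧ v.ord D ≠ 0}, e.1.ord D = c := by
  by_cases hne : Nonempty {v : Place (Kap A) ↥(modularFunctionFieldFullC (Kap A) M') //
      Fermat.Agent.T1B.AuxUnit29.RegT A M' htκ v ∧ v.ord D ≠ 0}
  · haveI := hne
    haveI := hL.noeth0
    haveI : Fact q.Prime := ⟨hq⟩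
    letI : Algebra (ZMod q) (Kap A) := algebraZModKap A hq hA
    haveI : Algebra.IsAlgebraic (ZMod q) (Kap A) := isAlgebraic_zmod_kap55 A hq
    obtain ⟨c, hc, hDE, -⟩ := w3_aux_P hN (res1K M' q hπ hE H hrange)
      (res1K_eq_zero_of_not_isUnit M' q hπ hE H hrange) q
      (deg_eq_one_kap A M' hq hA hqM') (frac_B0 M' q hπ hE ht hL)
      (adjoin_range_res1K M' q hπ hE H hrange)
      (hP_hub M' q hπ hE H hrange ht hL hN hq hA hqM' htκ hh hinv hO₂ hD) hh hinv hO₂
    refine ⟨c, hc, fun e => ?_⟩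
    have h := hDE e
    rw [hD] at h
    exact h
  · exact ⟨1, one_ne_zero, fun e => (hne ⟨e⟩).elim⟩

include hL hq hA hqM' in
/-- `hDoff` at the hub for the intrinsic index (by definition of `ιR2`; stated for completeness). -/
theorem hDoff_hub {D : ↥(modularFunctionFieldFullC (Kap A) M')}
    (v : Place (Kap A) ↥(modularFunctionFieldFullC (Kap A) M'))
    (hreg : Fermat.Agent.T1B.AuxUnit29.RegT A M' htκ v)
    (hv : ¬ ∃ e : {v : Place (Kap A) ↥(modularFunctionFieldFullC (Kap A) M') //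
      Fermat.Agent.T1B.AuxUnit29.RegT A M' htκ v ∧ v.ord D ≠ 0}, e.1 = v) : v.ord D = 0 := by
  by_contra h
  exact hv ⟨⟨v, hreg, h⟩, rfl⟩

include hL hq hA hqM' in
/-- **`hDE*` at the hub** in helper14's shape (`Brandt14.BF_one_nodeK`, `Brandt57.HubHDE`): the
auxiliary function has the same nonzero order at all its zeros and poles in the `t̄`-finite part. -/
theorem hDE_hub' {h0 g0 : ↥(B0 A q ht)} {m : ℕ}
    (hh : h0 * g0 = (algebraMap ↥(AK A K) ↥(B0 A q ht) π) ^ m)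
    (hinv : (algebraMap ↥(B0 A q ht) ↥(FK (M' * q) K) h0)⁻¹ ∈ O1 M' q hπ hE)
    (hO₂ : ord (O2 M' q hπ hE)
      (algebraMap ↥(B0 A q ht) ↥(FK (M' * q) K) (algebraMap ↥(AK A K) ↥(B0 A q ht) π))
      (algebraMap ↥(B0 A q ht) ↥(FK (M' * q) K) h0) ≠ 0)
    {D : ↥(modularFunctionFieldFullC (Kap A) M')}
    (hD : resChart (res1K M' q hπ hE H hrange) hN.chart.le₁ h0 = D) :
    ∃ c : ℤ, c ≠ 0 ∧
      ∀ v : Place (Kap A) ↥(modularFunctionFieldFullC (Kap A) M'),
        Fermat.Agent.T1B.AuxUnit29.RegT A M' htκ v → v.ord D ≠ 0 → v.ord D = c := by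
  obtain ⟨c, hc, h⟩ := hDE_hub M' q hπ hE H hrange ht hL hN hq hA hqM' htκ hh hinv hO₂ hD
  exact ⟨c, hc, fun v hreg hv => h ⟨v, hreg, hv⟩⟩

end Hub

end Fermat.Agent.T1B.Brandt55
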