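/-
Programme T1B (row 38 / S44), cell R2/BRANDT, last mile **R2-FINAL**, leaf **hReg-K** (helper55): the
statement of `Brandt55/HubReg` in the literal binders of helper14's `Brandt14/AuxTerms`
(`RegK A hA M' hpM' hM' v := AuxUnit29.RegT A M' (tK_mem ..) v`, `(n, e) = (4, 8)`):

  `regK_iff_hasCentre : RegK A hA M' hpM' hM' v ↔ HasCentre Hc (res1K M' p hπ hE H hrange) v`

for ANY `H`, `hrange` (e.g. `H := (Brandt57.HDF A p M').norm`, `hrange := Brandt57.hrangeF ..`) and any
`Hc : ChartHyp (algebraMap (AK A K) (B0 A p ht) π) O1 O2` (e.g. `hN.chart`) — exactly the hypothesis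
`hReg` of `AuxUnit79.HubH0.hDE_K` / `hDE_h0S`.
-/
import Mathlib
import Fermat.Agent.T1B.Brandt55.HubReg
import Fermat.Agent.T1B.Brandt14.AuxTerms

set_option autoImplicit false
set_option linter.unusedSectionVars false
set_option linter.unusedVariables false
set_option linter.style.haveILetI false

noncomputable section

open HahnSeries ModularCurve IntermediateField AlgebraicCurve

namespace Fermat.Agent.T1B.Brandt55

open Fermat.Agent.RED.Interface4 Fermat.Agent.RED.PUR.GaussGen8
open Fermat.Agent.RED.PUR.ChartGeneric22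
open Fermat.Agent.RED.DESC.PlaceExtend27
open Fermat.Agent.RED.BASE.EtaQuot12
open Fermat.Agent.ES.N34.ModelDefs9 Fermat.Agent.ES.N34.NumData13
open Fermat.Agent.T1B.Hecke3 Fermat.Agent.T1B.GaussW77 Fermat.Agent.T1B.Hol80
open Fermat.Agent.T1B.Brandt96 Fermat.Agent.T1B.Unif77
open scoped Fermat.Agent.T1.Assembly41.FastInst

/- speed: the canonical `Algebra κ ↥S` instance of an intermediate field, tried first. -/
attribute [local instance 5000] SubalgebraClass.toAlgebra

variable (A : ValuationSubring Qbar) {p : ℕ} [hp : Fact p.Prime] (hA : A.LiesOverPrime p)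
  (M' : ℕ) [NeZero M'] [NeZero p] (hpM' : ¬ p ∣ M') (hM' : 4 ∣ M')

/-- **hReg-K** in `Brandt14`'s binders. -/
theorem regK_iff_hasCentre {K : IntermediateField ℚ Qbar} {π : ↥(AK A K)}
    (hπ : IsUnif (AK A K) π) (hE : FK (M' * p) K ≤ fracField (AK A K))
    (H : ∀ f : Fbar (M' * p), f ≠ 0 → Normalisable A (coeHom (M' * p) f))
    (hrange : ∀ x : ↥(gaussVal A (coeHom (M' * p)) H),
      gaussResV A (coeHom (M' * p)) H x ∈ modularFunctionFieldFullC (Kap A) M')
    (ht : tq ↥K 4 8 ∈ FK M' K)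
    (Hc : ChartHyp (algebraMap ↥(AK A K) ↥(B0 A p ht) π) (O1 M' p hπ hE) (O2 M' p hπ hE))
    (v : Place (Kap A) ↥(modularFunctionFieldFullC (Kap A) M')) :
    Fermat.Agent.T1B.Brandt14.RegK A hA M' hpM' hM' v ↔
      HasCentre Hc (res1K M' p hπ hE H hrange) v :=
  regT_iff_hasCentre M' p hπ hE H hrange ht Hc
    (Fermat.Agent.T1B.Brandt14.tK_mem A hA M' hpM' hM') v

end Fermat.Agent.T1B.Brandt55
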